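import Fermat.Agent.S26.Ample.Spec
import Fermat.Agent.S26.H126.GroupCalc

/-!
# Row S26, block AMPLE, leaf AM-TR (helper35): `Ample.Stmt.TranslIso`

Translations by `K`-points and `[-1]` are isomorphisms of the abelian variety and preserve the
generic point.  The isomorphisms are `H126.negIso`, `H126.translIso` (Yoneda, on main); an
automorphism of an integral scheme fixes the generic point
(`AlgebraicGeometry.genericPoint_eq_of_isOpenImmersion`).

Also exported: `isIso_negHom`, `isIso_transl`, `negHom_genericPoint`, `transl_genericPoint`,
`negHom_negHom_apply`, `transl_negPt_transl_apply` (pointwise inverse identities).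
-/

set_option autoImplicit false
universe u

open CategoryTheory CategoryTheory.Limits AlgebraicGeometry NeronModelInfra GoodReductionJacobian

namespace Fermat.Agent.S26

noncomputable section

namespace Ample

namespace H35

/-- An automorphism (indeed any isomorphism onto itself) of an integral scheme fixes the generic
point. -/
theorem iso_apply_genericPoint {X Y : Scheme.{u}} [IsIntegral X] [IsIntegral Y] (φ : X ⟶ Y)
    [IsIso φ] : φ (genericPoint X) = genericPoint Y :=
  genericPoint_eq_of_isOpenImmersion φ

variable {K : Type u} [Field K] (X : AbVar K)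

theorem negHom_eq : X.negHom = H126.negHom X.law := rfl

theorem transl_eq (x : X.Pt) : X.transl x = H126.transl X.law x := rfl

theorem negPt_eq (x : X.Pt) : X.negPt x = X.law.inv (𝟙 (Spec (CommRingCat.of K))) x := rfl

instance isIso_negHom : IsIso X.negHom := H126.negHom_isIso X.law

instance isIso_transl (x : X.Pt) : IsIso (X.transl x) := H126.transl_isIso X.law x

theorem negHom_genericPoint [IsIntegral X.A] :
    X.negHom (genericPoint X.A) = genericPoint X.A :=
  iso_apply_genericPoint X.negHom

theorem transl_genericPoint [IsIntegral X.A] (x : X.Pt) :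
    X.transl x (genericPoint X.A) = genericPoint X.A :=
  iso_apply_genericPoint (X.transl x)

@[reassoc]
theorem negHom_comp_negHom : X.negHom ≫ X.negHom = 𝟙 X.A := H126.negHom_negHom X.law

@[reassoc]
theorem transl_comp_transl_negPt (x : X.Pt) : X.transl x ≫ X.transl (X.negPt x) = 𝟙 X.A :=
  H126.transl_comp_transl_inv X.law x

@[reassoc]
theorem transl_negPt_comp_transl (x : X.Pt) : X.transl (X.negPt x) ≫ X.transl x = 𝟙 X.A :=
  H126.transl_inv_comp_transl X.law x

theorem negHom_negHom_apply (a : X.A) : X.negHom (X.negHom a) = a := by
  have h := congrArg (fun φ : X.A ⟶ X.A => φ a) (negHom_comp_negHom X)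
  simpa using h

theorem transl_negPt_transl_apply (x : X.Pt) (a : X.A) :
    X.transl (X.negPt x) (X.transl x a) = a := by
  have h := congrArg (fun φ : X.A ⟶ X.A => φ a) (transl_comp_transl_negPt X x)
  simpa using h

theorem transl_transl_negPt_apply (x : X.Pt) (a : X.A) :
    X.transl x (X.transl (X.negPt x) a) = a := by
  have h := congrArg (fun φ : X.A ⟶ X.A => φ a) (transl_negPt_comp_transl X x)
  simpa using h

/-- **Leaf AM-TR**: translations by `K`-points and `[-1]` are isomorphisms and preserve the
generic point. -/
theorem translIso (K : Type u) [Field K] [IsAlgClosed K] : Stmt.TranslIso K := by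
  intro X _
  exact ⟨isIso_negHom X, fun x => ⟨isIso_transl X x, transl_genericPoint X x⟩⟩

end H35

end Ample

end

end Fermat.Agent.S26
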